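/-
S41 / C4 [CSP] BACKUP route (helper7's proof #3041), piece [PSI-LAYER] (helper19).

For a homomorphism `Φ` on `Δ = Γ₀(N)[1/q]` killing `u(ℤ[1/q])`, and a prime `r` (coprime to `Nq`,
with helper31's side condition), the function `ψ x := Φ (any g ∈ Δ with integer first column
(a, N r), a ≡ 1 mod N, a ≡ x mod r)` on `(ZMod r)ˣ` is well defined and satisfies helper7's
relation (ii):  `ψ (x L) ψ (y / L) = ψ x ψ y`,  `L (x y + 1) = x y + q²`.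
Together with Lemma FE (as a hypothesis) this gives `Φ g = 1` at the level `c = N r`.
-/
import Fermat.Agent.S41.CspInv59.Inv
import Fermat.Agent.S41.CspArith31.Package

set_option autoImplicit false

namespace Fermat.Agent.S41.CspInv19

open Matrix Fermat.Agent.S41.Amalgam95 Fermat.Agent.S41.CspInv59 Fermat.Agent.S41.CspArith31

/-- `l(y) = [[1,0],[y,1]]` -/
def lQ (y : ℚ) : SLQ := mkQ 1 0 y 1 (by ring)

section basics

variable {N q : ℕ}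

lemma uQ_mem_DeltaQ {x : ℚ} (hx : IsAway q x) : uQ x ∈ DeltaQ N q :=
  ⟨IsAway.one, hx, ⟨0, IsAway.zero, by simp [uQ]⟩, IsAway.one⟩

lemma lQ_mem_DeltaQ (m : ℤ) : lQ ((N : ℚ) * m) ∈ DeltaQ N q :=
  ⟨IsAway.one, IsAway.zero, ⟨m, IsAway.of_int m, rfl⟩, IsAway.one⟩

/-- integer matrices with lower left entry divisible by `N` are in `Δ` -/
lemma intMat_mem_DeltaQ (a b c d : ℤ) (h : (a : ℚ) * d - b * ((N : ℚ) * c) = 1) :
    mkQ a b ((N : ℚ) * c) d h ∈ DeltaQ N q :=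
  ⟨IsAway.of_int a, IsAway.of_int b, ⟨c, IsAway.of_int c, rfl⟩, IsAway.of_int d⟩

/-- two elements of `SL(2,ℚ)` with the same first column differ by a `u(s)` on the right -/
lemma eq_mul_uQ (x y : SLQ) (h0 : x 0 0 = y 0 0) (h1 : x 1 0 = y 1 0) :
    y = x * uQ (x 1 1 * y 0 1 - x 0 1 * y 1 1) := by
  have hx := det_eq x
  have hy := det_eq y
  rw [h0, h1] at hx
  apply ext_entries
  · rw [mul_00]; simp only [uQ, mkQ_00, mkQ_10]; rw [h0]; ring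
  · rw [mul_01]; simp only [uQ, mkQ_01, mkQ_11]; rw [h0]
    linear_combination (-(y 0 1)) * hx + (x 0 1) * hy
  · rw [mul_10]; simp only [uQ, mkQ_00, mkQ_10]; rw [h1]; ring
  · rw [mul_11]; simp only [uQ, mkQ_01, mkQ_11]; rw [h1]
    linear_combination (-(y 1 1)) * hx + (x 1 1) * hy

/-- `hQ v ∈ Δ` for `v = q^j` -/
lemma hQ_pow_mem (j : ℕ) (hv : ((q : ℚ) ^ j) ≠ 0) :
    hQ ((q : ℚ) ^ j) hv ∈ DeltaQ N q := by
  refine ⟨?_, IsAway.zero, ⟨0, IsAway.zero, ?_⟩, ?_⟩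
  · show IsAway q ((q : ℚ) ^ j)
    exact ⟨0, (q : ℤ) ^ j, by push_cast; ring⟩
  · show (0 : ℚ) = (N : ℚ) * 0
    ring
  · show IsAway q (((q : ℚ) ^ j)⁻¹)
    exact ⟨j, 1, by push_cast; exact inv_mul_cancel₀ hv⟩

end basics

section phi

variable {N q : ℕ} {V : Type*} [CommGroup V]

/-- `Φ` kills `u(ℤ[1/q])` -/
def KillsU (Φ : ↥(DeltaQ N q) →* V) : Prop :=
  ∀ (x : ℚ) (hx : IsAway q x), Φ ⟨uQ x, uQ_mem_DeltaQ hx⟩ = 1

variable (Φ : ↥(DeltaQ N q) →* V)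

/-- the value of `Φ` only depends on the first column -/
lemma phi_eq_of_col (hu : KillsU Φ) (x y : ↥(DeltaQ N q))
    (h0 : (x : SLQ) 0 0 = (y : SLQ) 0 0) (h1 : (x : SLQ) 1 0 = (y : SLQ) 1 0) : Φ x = Φ y := by
  have hs : IsAway q ((x : SLQ) 1 1 * (y : SLQ) 0 1 - (x : SLQ) 0 1 * (y : SLQ) 1 1) :=
    (x.2.2.2.2.mul y.2.2.1).sub (x.2.2.1.mul y.2.2.2.2)
  have e : y = x * ⟨uQ _, uQ_mem_DeltaQ hs⟩ := Subtype.ext (eq_mul_uQ (x : SLQ) y h0 h1)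
  rw [e, map_mul, hu _ hs, mul_one]

/-- (F1): left multiplication by `u(k)` -/
lemma phi_uQ_mul (hu : KillsU Φ) {k : ℚ} (hk : IsAway q k) (g : ↥(DeltaQ N q)) :
    Φ (⟨uQ k, uQ_mem_DeltaQ hk⟩ * g) = Φ g := by
  rw [map_mul, hu _ hk, one_mul]

/-- existence of integer matrices in `Δ` with prescribed coprime first column -/
lemma exists_int_col (a c : ℤ) (h : IsCoprime a ((N : ℤ) * c)) :
    ∃ (g : ↥(DeltaQ N q)) (b d : ℤ), (g : SLQ) 0 0 = a ∧ (g : SLQ) 0 1 = b ∧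
      (g : SLQ) 1 0 = (N : ℚ) * c ∧ (g : SLQ) 1 1 = d ∧ a * d - b * ((N : ℤ) * c) = 1 := by
  obtain ⟨u, v, huv⟩ := h
  have hz : a * u - (-v) * ((N : ℤ) * c) = 1 := by linarith
  have hq : (a : ℚ) * u - ((-v : ℤ) : ℚ) * ((N : ℚ) * c) = 1 := by exact_mod_cast hz
  exact ⟨⟨mkQ a ((-v : ℤ) : ℚ) ((N : ℚ) * c) u hq, intMat_mem_DeltaQ a (-v) c u hq⟩, -v, u,
    rfl, rfl, rfl, rfl, hz⟩

end phi

section rep

variable {N q r : ℕ} [hr : Fact r.Prime]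

/-- CRT: an integer `≡ 1 mod N` in a prescribed class mod `r` -/
lemma exists_crt (hNr : N.Coprime r) (z : ZMod r) :
    ∃ a : ℤ, a ≡ 1 [ZMOD N] ∧ (a : ZMod r) = z := by
  have hN0 : (N : ZMod r) ≠ 0 := by
    rw [Ne, ZMod.natCast_eq_zero_iff]
    intro hd
    have := Nat.eq_one_of_dvd_coprimes hNr hd (dvd_refl r)
    exact hr.out.one_lt.ne' this
  refine ⟨1 + (N : ℤ) * (((z - 1) * (N : ZMod r)⁻¹).val : ℤ), ?_, ?_⟩
  · rw [Int.modEq_iff_dvd]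
    exact ⟨-(((z - 1) * (N : ZMod r)⁻¹).val : ℤ), by ring⟩
  · push_cast
    rw [ZMod.natCast_zmod_val, ← mul_assoc, mul_comm (N : ZMod r), mul_assoc,
      mul_inv_cancel₀ hN0]
    ring

/-- an integer `≡ 1 mod N`, nonzero mod `r`, is coprime to `N r` -/
lemma isCoprime_of_rep {a : ℤ} (h1 : a ≡ 1 [ZMOD N]) (h2 : (a : ZMod r) ≠ 0) :
    IsCoprime a ((N : ℤ) * (r : ℤ)) := by
  apply IsCoprime.mul_right
  · obtain ⟨k, hk⟩ := h1.dvd
    exact ⟨1, k, by linarith⟩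
  · have hp : Prime (r : ℤ) := Nat.prime_iff_prime_int.1 hr.out
    rw [isCoprime_comm, hp.irreducible.coprime_iff_not_dvd]
    rwa [Ne, ZMod.intCast_zmod_eq_zero_iff_dvd] at h2

/-- `g ∈ Δ` has first column `(a, N r)` with `a` an integer `≡ 1 mod N`, `≡ x mod r`. -/
def IsRep (N q r : ℕ) (g : ↥(DeltaQ N q)) (x : (ZMod r)ˣ) : Prop :=
  (g : SLQ) 1 0 = (N : ℚ) * ((r : ℤ) : ℚ) ∧
    ∃ a : ℤ, (g : SLQ) 0 0 = a ∧ a ≡ 1 [ZMOD N] ∧ (a : ZMod r) = x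

/-- integral representatives (with integral second column) exist -/
lemma exists_rep_int {a : ℤ} (h1 : a ≡ 1 [ZMOD N]) (x : (ZMod r)ˣ) (h2 : (a : ZMod r) = x) :
    ∃ (g : ↥(DeltaQ N q)) (b d : ℤ), IsRep N q r g x ∧ (g : SLQ) 0 0 = a ∧ (g : SLQ) 0 1 = b ∧
      (g : SLQ) 1 1 = d ∧ a * d - b * ((N : ℤ) * r) = 1 := by
  have hne : (a : ZMod r) ≠ 0 := by rw [h2]; exact x.ne_zero
  obtain ⟨g, b, d, g00, g01, g10, g11, hdet⟩ :=
    exists_int_col (N := N) (q := q) a (r : ℤ) (isCoprime_of_rep h1 hne)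
  exact ⟨g, b, d, ⟨g10, a, g00, h1, h2⟩, g00, g01, g11, hdet⟩

lemma exists_rep (hNr : N.Coprime r) (x : (ZMod r)ˣ) : ∃ g : ↥(DeltaQ N q), IsRep N q r g x := by
  obtain ⟨a, h1, h2⟩ := exists_crt hNr (x : ZMod r)
  obtain ⟨g, _, _, hg, _⟩ := exists_rep_int (q := q) h1 x h2
  exact ⟨g, hg⟩

variable {V : Type*} [CommGroup V] (Φ : ↥(DeltaQ N q) →* V)

/-- two representatives of the same class have the same `Φ`-value (by (F1)) -/
lemma phi_eq_of_rep (hu : KillsU Φ) (hNr : N.Coprime r) {g g' : ↥(DeltaQ N q)} {x : (ZMod r)ˣ}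
    (hg : IsRep N q r g x) (hg' : IsRep N q r g' x) : Φ g = Φ g' := by
  obtain ⟨g10, a, g00, ha1, hax⟩ := hg
  obtain ⟨g10', a', g00', ha1', hax'⟩ := hg'
  have hN : a ≡ a' [ZMOD (N : ℤ)] := ha1.trans ha1'.symm
  have hR : a ≡ a' [ZMOD (r : ℤ)] := by
    rw [← ZMod.intCast_eq_intCast_iff, hax, hax']
  have hNR : a ≡ a' [ZMOD (N : ℤ) * (r : ℤ)] :=
    (Int.modEq_and_modEq_iff_modEq_mul (by simpa using hNr)).1 ⟨hN, hR⟩
  obtain ⟨k, hk⟩ := hNR.dvd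
  have hk' : IsAway q ((k : ℤ) : ℚ) := IsAway.of_int k
  rw [← phi_uQ_mul Φ hu hk' g]
  apply phi_eq_of_col Φ hu
  · show (uQ (k : ℚ) * (g : SLQ)) 0 0 = (g' : SLQ) 0 0
    rw [mul_00, g00, g10, g00']
    simp only [uQ, mkQ_00, mkQ_01]
    have : (a' : ℚ) = a + ((N : ℤ) * (r : ℤ) * k : ℤ) := by
      rw [← hk]; push_cast; ring
    rw [this]; push_cast; ring
  · show (uQ (k : ℚ) * (g : SLQ)) 1 0 = (g' : SLQ) 1 0
    rw [mul_10, g10, g10']
    simp only [uQ, mkQ_10, mkQ_11]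
    ring

/-- the function `ψ` on `(ZMod r)ˣ` -/
noncomputable def psi (hNr : N.Coprime r) (x : (ZMod r)ˣ) : V :=
  Φ (Classical.choose (exists_rep (q := q) hNr x))

lemma phi_eq_psi (hu : KillsU Φ) (hNr : N.Coprime r) {g : ↥(DeltaQ N q)} {x : (ZMod r)ˣ}
    (hg : IsRep N q r g x) : Φ g = psi Φ hNr x :=
  phi_eq_of_rep Φ hu hNr hg (Classical.choose_spec (exists_rep (q := q) hNr x))

end rep

section arith

/-- the auxiliary `t` (`= ρ` or `2ρ`) and the exponent `j` of §3(iii), from helper31's lemmas,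
uniformly in the parity of `N`. -/
lemma exists_t_j {N p q r : ℕ} [hr : Fact r.Prime] [hq : Fact q.Prime] (hN : 0 < N)
    (hqN : ¬ q ∣ N) (hr2 : r ≠ 2) (hqr : ¬ r ∣ q)
    (h : ((r - 1) / 2).Coprime (2 * (N * Nat.totient (2 * N) * p)))
    (s : ℤ) (hs2 : s ≡ 2 [ZMOD (N : ℤ)]) (hsr : (s : ZMod r) ≠ 0) :
    ∃ t j : ℕ, 0 < t ∧ (t : ℤ) ≡ s [ZMOD (N : ℤ) * (r : ℤ)] ∧ 1 ≤ j ∧
      q ^ (2 * j) ≡ 1 [MOD N * t] ∧ (q : ZMod r) ^ (2 * j) = (q : ZMod r) ^ 2 := by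
  have hr0 : 0 < r := hr.out.pos
  have hM0 : ((N : ℤ) * (r : ℤ)) ≠ 0 := by positivity
  set t0 : ℕ := (s % ((N : ℤ) * (r : ℤ))).toNat with ht0def
  have ht0 : (t0 : ℤ) = s % ((N : ℤ) * (r : ℤ)) := Int.toNat_of_nonneg (Int.emod_nonneg s hM0)
  have ht0s : (t0 : ℤ) ≡ s [ZMOD (N : ℤ) * (r : ℤ)] := by
    rw [ht0]; exact Int.mod_modEq s _
  have ht0N : (t0 : ℤ) ≡ 2 [ZMOD (N : ℤ)] :=
    (ht0s.of_mul_right (r : ℤ)).trans hs2
  have ht0r : (t0 : ZMod r) ≠ 0 := by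
    have : ((t0 : ℤ) : ZMod r) = (s : ZMod r) := by
      rw [ZMod.intCast_eq_intCast_iff]
      exact ht0s.of_mul_left (N : ℤ)
    intro h0
    apply hsr
    rw [← this]
    exact_mod_cast h0
  have hrt0 : ¬ r ∣ t0 := by rwa [Ne, ZMod.natCast_eq_zero_iff] at ht0r
  have hqNc : q.Coprime N := (Nat.Prime.coprime_iff_not_dvd hq.out).2 hqN
  rcases Nat.even_or_odd N with hNe | hNo
  · -- `N` even: `t = 2ρ`
    have hq2 : q.Coprime 2 := by
      rw [Nat.Prime.coprime_iff_not_dvd hq.out]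
      intro hd
      exact hqN (hd.trans (even_iff_two_dvd.1 hNe))
    have hq2N : q.Coprime (2 * N) := Nat.Coprime.mul_right hq2 hqNc
    obtain ⟨N', hN'⟩ := hNe
    have hN'2 : N = 2 * N' := by omega
    have hN'0 : 0 < N' := by omega
    -- `t0` is even
    obtain ⟨k, hk⟩ := ht0N.dvd
    have ht0e : Even t0 := by
      rw [← Int.even_coe_nat]
      have : (t0 : ℤ) = 2 * (1 - N' * k) := by
        have : (N : ℤ) = 2 * N' := by exact_mod_cast hN'2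
        rw [this] at hk
        linarith
      rw [this]
      exact even_two_mul _
    obtain ⟨h0, hh0⟩ := ht0e
    have hh0' : t0 = 2 * h0 := by omega
    have hdiv : t0 / 2 = h0 := by omega
    have hNdiv : N / 2 = N' := by omega
    have hc1 : h0.Coprime N' := by
      rw [← Nat.isCoprime_iff_coprime]
      refine ⟨1, k, ?_⟩
      have : (N : ℤ) = 2 * N' := by exact_mod_cast hN'2
      rw [this] at hk
      have : (t0 : ℤ) = 2 * h0 := by exact_mod_cast hh0'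
      rw [this] at hk
      linarith
    have hc2 : h0.Coprime r := by
      rw [Nat.coprime_comm, Nat.Prime.coprime_iff_not_dvd hr.out]
      intro hd
      exact hrt0 (hh0' ▸ Dvd.dvd.mul_left hd 2)
    have hcop : (t0 / 2).Coprime (N / 2 * r) := by
      rw [hdiv, hNdiv]
      exact Nat.Coprime.mul_right hc1 hc2
    obtain ⟨ρ, _, hρ, hρt, j, hj1, hjN, hjr⟩ :=
      exists_rho_j_even (p := p) 0 hN.ne' ⟨N', hN'⟩ hq2N hr2 hqr h ⟨h0, hh0⟩ hcop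
    refine ⟨2 * ρ, j, by have := hρ.pos; omega, ?_, hj1, ?_, hjr⟩
    · have : ((2 * ρ : ℕ) : ℤ) ≡ (t0 : ℤ) [ZMOD ((N * r : ℕ) : ℤ)] :=
        Int.natCast_modEq_iff.2 hρt
      push_cast at this
      exact this.trans ht0s
    · have e : N * (2 * ρ) = 2 * N * ρ := by ring
      rw [e]; exact hjN
  · -- `N` odd: `t = ρ`
    have hc1 : t0.Coprime N := by
      have h2 : t0 ≡ 2 [MOD N] := Int.natCast_modEq_iff.1 (by exact_mod_cast ht0N)
      have := h2.gcd_eq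
      rw [Nat.Coprime, this]
      exact (Nat.coprime_two_left).2 hNo
    have hc2 : t0.Coprime r := by
      rw [Nat.coprime_comm, Nat.Prime.coprime_iff_not_dvd hr.out]
      exact hrt0
    obtain ⟨ρ, _, hρ, hρt, j, hj1, hjN, hjr⟩ :=
      exists_rho_j_odd (p := p) 0 hN.ne' hNo hqNc hr2 hqr h (Nat.Coprime.mul_right hc1 hc2)
    refine ⟨ρ, j, hρ.pos, ?_, hj1, hjN, hjr⟩
    have : ((ρ : ℕ) : ℤ) ≡ (t0 : ℤ) [ZMOD ((N * r : ℕ) : ℤ)] := Int.natCast_modEq_iff.2 hρt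
    push_cast at this
    exact this.trans ht0s

end arith

section relation

variable {N p q r : ℕ} [hr : Fact r.Prime] [hq : Fact q.Prime]
variable {V : Type*} [CommGroup V] (Φ : ↥(DeltaQ N q) →* V)

/-- the lower right entry of an integral representative: `≡ 1 mod N`, inverse of `a` mod `r` -/
lemma rep_lower_right {a b d : ℤ} (ha : a ≡ 1 [ZMOD (N : ℤ)])
    (hdet : a * d - b * ((N : ℤ) * (r : ℤ)) = 1) :
    d ≡ 1 [ZMOD (N : ℤ)] ∧ (a : ZMod r) * (d : ZMod r) = 1 := by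
  refine ⟨?_, ?_⟩
  · obtain ⟨k, hk⟩ := ha.dvd
    rw [Int.modEq_iff_dvd]
    refine ⟨-(d * k + b * r), ?_⟩
    have : a = 1 - (N : ℤ) * k := by linarith
    rw [this] at hdet
    linarith
  · have := congrArg (Int.cast : ℤ → ZMod r) hdet
    push_cast at this
    rw [ZMod.natCast_self, mul_zero, mul_zero, sub_zero] at this
    exact this

/-- **helper7's relation (ii)** for `ψ`, with `w = q² mod r`. -/
theorem psi_rel (hN : 0 < N) (hqN : ¬ q ∣ N) (hr2 : r ≠ 2) (hqr : ¬ r ∣ q) (hNr : N.Coprime r)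
    (h : ((r - 1) / 2).Coprime (2 * (N * Nat.totient (2 * N) * p)))
    (hu : KillsU Φ) (w : (ZMod r)ˣ) (hw : (w : ZMod r) = (q : ZMod r) ^ 2)
    (x y L : (ZMod r)ˣ) (h1 : (x * y : ZMod r) ≠ -1)
    (hL : (L : ZMod r) * (x * y + 1) = x * y + w) :
    psi Φ hNr (x * L) * psi Φ hNr (y * L⁻¹) = psi Φ hNr x * psi Φ hNr y := by
  -- `g₁`
  obtain ⟨a1, ha1N, ha1x⟩ := exists_crt hNr (x : ZMod r)
  obtain ⟨g1, b1, d1, hg1, g1_00, _, g1_11, hdet1⟩ := exists_rep_int (q := q) ha1N x ha1x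
  obtain ⟨hd1N, hd1x⟩ := rep_lower_right ha1N hdet1
  rw [ha1x] at hd1x
  -- the class of `y`
  obtain ⟨x2, hx2N, hx2y⟩ := exists_crt hNr (y : ZMod r)
  -- `s = x2 + d1`
  have hs2 : x2 + d1 ≡ 2 [ZMOD (N : ℤ)] := by
    have := hx2N.add hd1N
    simpa using this
  have hxs : (x : ZMod r) * ((x2 + d1 : ℤ) : ZMod r) = x * y + 1 := by
    push_cast
    rw [hx2y, mul_add, hd1x]
  have hP1 : (x * y + 1 : ZMod r) ≠ 0 := by
    intro h0
    exact h1 (eq_neg_of_add_eq_zero_left h0)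
  have hsr : ((x2 + d1 : ℤ) : ZMod r) ≠ 0 := by
    intro h0
    rw [h0, mul_zero] at hxs
    exact hP1 hxs.symm
  obtain ⟨t, j, ht0, hts, hj1, hjN, hjr⟩ := exists_t_j (p := p) hN hqN hr2 hqr h (x2 + d1) hs2 hsr
  have htN : (t : ℤ) ≡ 2 [ZMOD (N : ℤ)] := (hts.of_mul_right (r : ℤ)).trans hs2
  have htr : ((t : ℤ) : ZMod r) = ((x2 + d1 : ℤ) : ZMod r) := by
    rw [ZMod.intCast_eq_intCast_iff]
    exact hts.of_mul_left (N : ℤ)
  have hxt : (x : ZMod r) * ((t : ℤ) : ZMod r) = x * y + 1 := by rw [htr, hxs]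
  -- `g₂`, first column `(t - d1, N r)`
  have ha2N : (t : ℤ) - d1 ≡ 1 [ZMOD (N : ℤ)] := by
    have := htN.sub hd1N
    simpa using this
  have ha2y : (((t : ℤ) - d1 : ℤ) : ZMod r) = y := by
    have e : (((t : ℤ) - d1 : ℤ) : ZMod r) = ((t : ℤ) : ZMod r) - (d1 : ZMod r) := by push_cast; ring
    rw [e, htr]
    push_cast
    rw [hx2y]
    ring
  obtain ⟨g2, _, _, hg2, g2_00, _, _, _⟩ := exists_rep_int (q := q) ha2N y ha2y
  -- `w' = q^(2j)`, `N t ∣ w' - 1`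
  obtain ⟨m, hm⟩ : ((N : ℤ) * (t : ℤ)) ∣ ((q : ℤ) ^ (2 * j) - 1) := by
    have := (Nat.modEq_iff_dvd.1 hjN.symm)
    push_cast at this
    exact this
  have hwr : (((q : ℤ) ^ (2 * j) : ℤ) : ZMod r) = w := by
    push_cast
    rw [hjr, hw]
  -- `g`, first column `(a1 + N m, N r)`
  have haN : a1 + (N : ℤ) * m ≡ 1 [ZMOD (N : ℤ)] := by
    have : a1 + (N : ℤ) * m ≡ a1 + 0 [ZMOD (N : ℤ)] :=
      Int.ModEq.add_left a1 ((Int.modEq_zero_iff_dvd).2 (dvd_mul_right _ _))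
    rw [add_zero] at this
    exact this.trans ha1N
  have hkt : (((N : ℤ) * m : ℤ) : ZMod r) * ((t : ℤ) : ZMod r) = (w : ZMod r) - 1 := by
    rw [← hwr]
    have := congrArg (Int.cast : ℤ → ZMod r) hm
    push_cast at this ⊢
    rw [this]
    ring
  have htne : ((t : ℤ) : ZMod r) ≠ 0 := by
    intro h0
    rw [h0, mul_zero] at hxt
    exact hP1 hxt.symm
  have haxL : ((a1 + (N : ℤ) * m : ℤ) : ZMod r) = ((x * L : (ZMod r)ˣ) : ZMod r) := by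
    have e1 : ((x : ZMod r) * L - x) * ((t : ℤ) : ZMod r) = (w : ZMod r) - 1 := by
      have : ((x : ZMod r) * L - x) * ((t : ℤ) : ZMod r)
          = (L : ZMod r) * ((x : ZMod r) * ((t : ℤ) : ZMod r)) - (x : ZMod r) * ((t : ℤ) : ZMod r) := by
        ring
      rw [this, hxt, hL]
      ring
    have e2 : (((N : ℤ) * m : ℤ) : ZMod r) = (x : ZMod r) * L - x :=
      mul_right_cancel₀ htne (hkt.trans e1.symm)
    rw [Units.val_mul]
    have : ((a1 + (N : ℤ) * m : ℤ) : ZMod r) = (a1 : ZMod r) + (((N : ℤ) * m : ℤ) : ZMod r) := by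
      push_cast; ring
    rw [this, e2, ha1x]
    ring
  obtain ⟨g, b, d, hg, g_00, _, g_11, hdet⟩ := exists_rep_int (q := q) haN (x * L) haxL
  obtain ⟨hdN, hdx⟩ := rep_lower_right haN hdet
  rw [haxL, Units.val_mul] at hdx
  -- `g''`, first column `(t - w' d, N r)`
  have hwN : (q : ℤ) ^ (2 * j) ≡ 1 [ZMOD (N : ℤ)] := by
    rw [Int.modEq_iff_dvd]
    exact ⟨-(t * m), by linarith⟩
  have ha''N : (t : ℤ) - (q : ℤ) ^ (2 * j) * d ≡ 1 [ZMOD (N : ℤ)] := by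
    have := htN.sub (hwN.mul hdN)
    simpa using this
  have ha''y : (((t : ℤ) - (q : ℤ) ^ (2 * j) * d : ℤ) : ZMod r)
      = ((y * L⁻¹ : (ZMod r)ˣ) : ZMod r) := by
    have e0 : (((t : ℤ) - (q : ℤ) ^ (2 * j) * d : ℤ) : ZMod r)
        = ((t : ℤ) : ZMod r) - (((q : ℤ) ^ (2 * j) : ℤ) : ZMod r) * (d : ZMod r) := by
      push_cast; ring
    have e1 : (((t : ℤ) : ZMod r) - (w : ZMod r) * (d : ZMod r)) * ((x : ZMod r) * L)
        = (x : ZMod r) * y := by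
      have : (((t : ℤ) : ZMod r) - (w : ZMod r) * (d : ZMod r)) * ((x : ZMod r) * L)
          = (L : ZMod r) * ((x : ZMod r) * ((t : ℤ) : ZMod r))
            - (w : ZMod r) * ((x : ZMod r) * L * (d : ZMod r)) := by ring
      rw [this, hxt, hL, hdx]
      ring
    have e2 : (((y * L⁻¹ : (ZMod r)ˣ) : ZMod r)) * ((x : ZMod r) * L) = (x : ZMod r) * y := by
      rw [Units.val_mul]
      have : (y : ZMod r) * ((L⁻¹ : (ZMod r)ˣ) : ZMod r) * ((x : ZMod r) * L)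
          = (x : ZMod r) * y * ((L : ZMod r) * ((L⁻¹ : (ZMod r)ˣ) : ZMod r)) := by ring
      rw [this, Units.mul_inv, mul_one]
    have hxL : ((x : ZMod r) * L) ≠ 0 := by
      rw [← Units.val_mul]; exact (x * L).ne_zero
    rw [e0, hwr]
    exact mul_right_cancel₀ hxL (e1.trans e2.symm)
  obtain ⟨g'', _, _, hg'', g''_00, _, _, _⟩ := exists_rep_int (q := q) ha''N (y * L⁻¹) ha''y
  -- apply (INV)
  have hq0 : (q : ℚ) ≠ 0 := by exact_mod_cast hq.out.ne_zero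
  have hv : ((q : ℚ) ^ j) ≠ 0 := pow_ne_zero _ hq0
  have key := inv_hom' Φ (phi_eq_of_col Φ hu) ((q : ℚ) ^ j) hv (hQ_pow_mem j hv) g1 g2 g g''
    (t : ℚ)
    (by rw [g2_00, g1_11]; push_cast; ring)
    (by rw [hg2.1, hg1.1])
    (by
      rw [g_00, g1_00]
      have := congrArg (Int.cast : ℤ → ℚ) hm
      push_cast at this ⊢
      rw [← pow_mul, mul_comm j 2]
      linarith)
    (by rw [hg.1, hg1.1])
    (by rw [g''_00, g_11]; push_cast; rw [← pow_mul, mul_comm j 2])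
    (by rw [hg''.1, hg1.1])
  rw [phi_eq_psi Φ hu hNr hg1, phi_eq_psi Φ hu hNr hg2, phi_eq_psi Φ hu hNr hg,
    phi_eq_psi Φ hu hNr hg''] at key
  exact key.symm

end relation

section final

variable {N p q r : ℕ} [hr : Fact r.Prime] [hq : Fact q.Prime]
variable {V : Type*} [CommGroup V] (Φ : ↥(DeltaQ N q) →* V)

omit hq in
/-- `ψ 1 = Φ (l(N r))` -/
lemma psi_one (hu : KillsU Φ) (hNr : N.Coprime r) :
    psi Φ hNr 1 = Φ ⟨lQ ((N : ℚ) * ((r : ℤ) : ℚ)), lQ_mem_DeltaQ (r : ℤ)⟩ := by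
  symm
  apply phi_eq_psi Φ hu hNr
  refine ⟨rfl, 1, ?_, Int.ModEq.refl 1, by simp⟩
  show (1 : ℚ) = ((1 : ℤ) : ℚ)
  simp

omit hq in
/-- the upper left entry of an element of `Δ` with lower left entry `N r` is prime to `r` -/
lemma upper_left_ne_zero (hqr : ¬ r ∣ q) (g : ↥(DeltaQ N q)) (a : ℤ)
    (g00 : (g : SLQ) 0 0 = a) (g10 : (g : SLQ) 1 0 = (N : ℚ) * ((r : ℤ) : ℚ)) :
    (a : ZMod r) ≠ 0 := by
  rw [Ne, ZMod.intCast_zmod_eq_zero_iff_dvd]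
  intro hd
  have hdet := det_eq (g : SLQ)
  rw [g00, g10] at hdet
  obtain ⟨n1, B, hB⟩ := g.2.2.1
  obtain ⟨n2, D, hD⟩ := g.2.2.2.2
  have hQ : (a : ℚ) * D * (q : ℚ) ^ n1 - B * ((N : ℚ) * ((r : ℤ) : ℚ)) * (q : ℚ) ^ n2
      = (q : ℚ) ^ (n1 + n2) := by
    rw [← hB, ← hD, pow_add]
    linear_combination ((q : ℚ) ^ n1 * (q : ℚ) ^ n2) * hdet
  have hZ : a * D * (q : ℤ) ^ n1 - B * ((N : ℤ) * (r : ℤ)) * (q : ℤ) ^ n2
      = (q : ℤ) ^ (n1 + n2) := by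
    exact_mod_cast hQ
  have h1 : (r : ℤ) ∣ (q : ℤ) ^ (n1 + n2) := by
    rw [← hZ]
    apply dvd_sub
    · exact Dvd.dvd.mul_right (Dvd.dvd.mul_right hd _) _
    · exact Dvd.dvd.mul_right (Dvd.dvd.mul_left (dvd_mul_left _ _) _) _
  have h2 : r ∣ q ^ (n1 + n2) := by exact_mod_cast h1
  exact hqr (hr.out.dvd_of_dvd_pow h2)

/-- **the level `c = N r` statement**, with Lemma FE as a hypothesis (in the literal shape of
helper7's `FE_const_mul`). -/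
theorem phi_eq_one_at_level (hN : 0 < N) (hqN : ¬ q ∣ N) (hr2 : r ≠ 2) (hqr : ¬ r ∣ q)
    (hNr : N.Coprime r)
    (h : ((r - 1) / 2).Coprime (2 * (N * Nat.totient (2 * N) * p)))
    (hu : KillsU Φ) (hl : Φ ⟨lQ ((N : ℚ) * ((r : ℤ) : ℚ)), lQ_mem_DeltaQ (r : ℤ)⟩ = 1)
    (w : (ZMod r)ˣ) (hw : (w : ZMod r) = (q : ZMod r) ^ 2)
    (hFE : ∀ ψ : (ZMod r)ˣ → V,
      (∀ x y L : (ZMod r)ˣ, (x * y : ZMod r) ≠ -1 → (x * y : ZMod r) ≠ -w →
        (L : ZMod r) * (x * y + 1) = x * y + w → ψ (x * L) * ψ (y * L⁻¹) = ψ x * ψ y) →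
      ∀ x, ψ x = ψ 1)
    (g : ↥(DeltaQ N q)) (g10 : (g : SLQ) 1 0 = (N : ℚ) * (r : ℚ))
    (g00 : ∃ a : ℤ, (g : SLQ) 0 0 = a ∧ a ≡ 1 [ZMOD (N : ℤ)]) : Φ g = 1 := by
  obtain ⟨a, g00, haN⟩ := g00
  have g10' : (g : SLQ) 1 0 = (N : ℚ) * ((r : ℤ) : ℚ) := by rw [g10]; simp
  have hne := upper_left_ne_zero hqr g a g00 g10'
  have hrep : IsRep N q r g (Units.mk0 (a : ZMod r) hne) := ⟨g10', a, g00, haN, rfl⟩
  rw [phi_eq_psi Φ hu hNr hrep,
    hFE (psi Φ hNr) (fun x y L h1 _ hL => psi_rel (p := p) Φ hN hqN hr2 hqr hNr h hu w hw x y L h1 hL)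
      (Units.mk0 (a : ZMod r) hne),
    psi_one Φ hu hNr, hl]

end final

end Fermat.Agent.S41.CspInv19
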